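import Fermat.Agent.LLn.Node
import Fermat.Agent.LLu.UnitRes
import Fermat.Agent.BadRed.CPFinal
import Fermat.Agent.BadRed.HeckeER
import Fermat.Agent.BadRed.LocalPkgQb

/-!
# Orders at the nodes of the reduction of `Δ(τ)/Δ(pτ)`
-/

set_option autoImplicit false
set_option linter.unusedSectionVars false
set_option maxHeartbeats 400000

noncomputable section

open AlgebraicCurve Module IntermediateField ModularCurve HahnSeries

attribute [-instance] Fermat.Agent.X0Places.ffField Fermat.Agent.X0Places.ffAlgebra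

namespace Fermat.Agent.LLn

open Fermat.Agent.BadRed Fermat.Agent.LLp Fermat.Agent.LLu
open Fermat.Agent.FunField Fermat.Agent.FunField.PlaceLemmas Fermat.Agent.Deuring
open Fermat.Agent.Igusa Fermat.Agent.AtkinLehner
open Fermat.Agent.MzCusp (uL uL_ne_zero)

section Gen

variable {L : Type*} [Field L] [Algebra ℚ L] [IsAlgClosed L] [CharZero L] (ι : L →+* ℂ)
  (A : ValuationSubring L) {κ : Type*} [Field κ] [IsAlgClosed κ] (π : A →+* κ) [IsLocalHom π]
  (hπ : Function.Surjective π) (harch : ArchA π)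
  (N r : ℕ) [hr : Fact r.Prime] [hN : NeZero N] [CharP κ r] (hrN : ¬ r ∣ N)

include hrN in
/-- at places where `j j_r` is regular, `j` is regular -/
theorem j_reg_of_t_reg (v : Place L (modularFunctionFieldFullC L (N * r)))
    (h : 0 ≤ v.ord (HeckeRed.jF L (N * r) * CP.jrF L N r)) :
    0 ≤ v.ord (HeckeRed.jF L (N * r)) := by
  have : NeZero (N * r) := ⟨mul_ne_zero (NeZero.ne N) hr.out.ne_zero⟩
  have hj0 : HeckeRed.jF L (N * r) ≠ 0 := by
    intro h0
    exact jqModC_ne_zero_of_nontrivial L (congrArg Subtype.val h0)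
  have hw : ww L N r hrN (HeckeRed.jF L (N * r)) = CP.jrF L N r := CP.w_jF ..
  have hjr0 : CP.jrF L N r ≠ 0 := by
    rw [← hw, Ne, map_eq_zero]
    exact hj0
  have h1 := CP.pole_iff_of_involution (ww L N r hrN)
    (fun f => ww_ww L N r hrN f) (HeckeRed.jF L (N * r)) (fun v hv => by
      have := CP.jF_pole_reg (K := L) (N := N) (r := r) v hv
      rw [← hw] at this
      exact this) v
  rw [v.ord_mul hj0 hjr0] at h
  by_contra hcon
  push Not at hcon
  have h2 := h1.mp hcon
  have h3 : v.ord (CP.jrF L N r) < 0 := by rw [← hw]; exact h2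
  omega

include ι in
theorem u0_mem_rr (g : FrobPencil (twoVal A π hπ harch N r hrN).toRData)
    (hg : (g.t : modularFunctionFieldFullC L (N * r)) = HeckeRed.jF L (N * r) * CP.jrF L N r) :
    ∃ c : ℕ, u0 ι N r ∈ riemannRochSpace (c • g.E) ∧ (u0 ι N r)⁻¹ ∈ riemannRochSpace (c • g.E) := by
  have : NeZero (N * r) := ⟨mul_ne_zero (NeZero.ne N) hr.out.ne_zero⟩
  have hu0 : u0 ι N r ≠ 0 := by
    intro h0
    have h1 := coe_u0 ι N r
    rw [h0] at h1
    exact uL_ne_zero r L h1.symm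
  have hE : g.E = (poleDiv (g.t : modularFunctionFieldFullC L (N * r)) :
      Divisor L (modularFunctionFieldFullC L (N * r))) := by
    ext v
    rw [g.hE, poleDiv_apply, max_comm]
  have hord : ∀ v : Place L (modularFunctionFieldFullC L (N * r)),
      0 ≤ v.ord (g.t : modularFunctionFieldFullC L (N * r)) → v.ord (u0 ι N r) = 0 := by
    intro v hv
    rw [hg] at hv
    exact ord_u0 ι N r rfl (u0 ι N r) (HeckeRed.jF L (N * r)) (coe_u0 ι N r)
      rfl v (j_reg_of_t_reg N r hrN v hv)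
  obtain ⟨c₁, h₁⟩ := exists_mem_rr_poleDiv (K := L) (t := (g.t : modularFunctionFieldFullC L (N * r))) hu0
    (fun v hv => (hord v hv).ge)
  obtain ⟨c₂, h₂⟩ := exists_mem_rr_poleDiv (K := L) (t := (g.t : modularFunctionFieldFullC L (N * r)))
    (inv_ne_zero hu0) (fun v hv => by rw [v.ord_inv, hord v hv, neg_zero])
  refine ⟨max c₁ c₂, ?_, ?_⟩
  · rw [hE]; exact h₁ _ (le_max_left _ _)
  · rw [hE]; exact h₂ _ (le_max_right _ _)

/-- the slope of `u₀` -/
theorem slopeAt_u0 (ub : modularFunctionFieldFullC κ N) (hub : (ub : LaurentSeries κ) = uL κ r) :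
    (twoVal A π hπ harch N r hrN).SlopeAt (r : L) (u0 ι N r) 12 ub ub⁻¹ := by
  have hub0 : ub ≠ 0 := by
    rintro rfl
    exact uL_ne_zero r κ hub.symm
  have hr0 : (r : L) ≠ 0 := Nat.cast_ne_zero.mpr hr.out.ne_zero
  have hu0 : u0 ι N r ≠ 0 := by
    intro h0
    have h1 := coe_u0 ι N r
    rw [h0] at h1
    exact uL_ne_zero r L h1.symm
  have h1 : (twoVal A π hπ harch N r hrN).V₁.ER (u0 ι N r) ub := by
    rw [er₁_gauss]
    have hm : ((u0 ι N r : modularFunctionFieldFullC L (N * r)) : LaurentSeries L) ∈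
        gaussRing A π := by
      rw [coe_u0]; exact uL_mem_gauss A π r
    refine ⟨hm, ?_⟩
    rw [hub, ← gaussRes_uL A π r (uL_mem_gauss A π r)]
    exact CP.gaussRes_congr' (coe_u0 ι N r) _ _
  refine ⟨hub0, inv_ne_zero hub0, 1, one_ne_zero, by rw [one_smul]; exact h1, ?_⟩
  rw [er₂_iff]
  have hw : ww L N r hrN (u0 ι N r) * u0 ι N r =
      algebraMap L (modularFunctionFieldFullC L (N * r)) ((r : L) ^ 12) := w_u0 ..
  have h2 : ww L N r hrN ((1 * ((r : L) ^ (12 : ℤ))⁻¹) • u0 ι N r) = (u0 ι N r)⁻¹ := by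
    rw [one_mul, Algebra.smul_def, map_mul, AlgEquiv.commutes, map_inv₀]
    have h3 : ww L N r hrN (u0 ι N r) =
        algebraMap L (modularFunctionFieldFullC L (N * r)) ((r : L) ^ 12) * (u0 ι N r)⁻¹ := by
      rw [← hw, mul_assoc, mul_inv_cancel₀ hu0, mul_one]
    have h4 : algebraMap L (modularFunctionFieldFullC L (N * r)) ((r : L) ^ 12) ≠ 0 := by
      rw [Ne, map_eq_zero]; exact pow_ne_zero _ hr0
    rw [h3, ← mul_assoc]
    have h5 : ((r : L) ^ (12 : ℤ)) = (r : L) ^ 12 := by norm_cast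
    rw [h5, inv_mul_cancel₀ h4, one_mul]
  rw [h2]
  exact h1.inv hub0

include ι in
/-- **Orders of the residue of `u₀` at the nodes** (abstract rational structure). -/
theorem node_order (p : FrobPencil (twoVal A π hπ harch N r hrN).toRData)
    [HasPrincipalDivisors L (modularFunctionFieldFullC L (N * r))]
    [IsFF L (modularFunctionFieldFullC L (N * r))]
    [HasPrincipalDivisors κ (modularFunctionFieldFullC κ N)]
    [IsFF κ (modularFunctionFieldFullC κ N)]
    {g g₁ : ℤ} (hRR : RRLarge L (modularFunctionFieldFullC L (N * r)) g)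
    (hRR₁ : RRLarge κ (modularFunctionFieldFullC κ N) g₁) (hpos : 0 < Divisor.degree p.Eb)
    (hg : (p.t : modularFunctionFieldFullC L (N * r)) = HeckeRed.jF L (N * r) * CP.jrF L N r)
    (R : (twoVal A π hπ harch N r hrN).RatDat p.toPencil) (hR : (R.ϖ : L) = r)
    (ub : modularFunctionFieldFullC κ N) (hub : (ub : LaurentSeries κ) = uL κ r) (y : p.Pt) :
    (∀ v, At p.toPencil (p.frPt y) v → 1 ≤ v.ord ub ∧ v.ord ub ≤ 12) ∧
      (∀ v, At p.toPencil y.1 v → 1 ≤ v.ord ub ∧ v.ord ub ≤ 12) := by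
  obtain ⟨c, h1, h2⟩ := u0_mem_rr ι A π hπ harch N r hrN p hg
  have h3 := slopeAt_u0 ι A π hπ harch N r hrN ub hub
  rw [← hR] at h3
  have h4 := slope_node p R hRR hRR₁ hpos (s := 12) (by norm_num) h3 h1 h2 y
  refine ⟨h4.1, fun v hv => ?_⟩
  have h5 := h4.2 v hv
  rw [v.ord_inv, neg_neg] at h5
  exact h5

end Gen

section Qbar

variable {κ : Type*} [Field κ] [IsAlgClosed κ]

/-- **NODE**: the residue of the modular unit has order between `1` and `12` at the nodes. -/
theorem node_order_qbar (ι : AlgebraicClosure ℚ →+* ℂ) (A : ValuationSubring (AlgebraicClosure ℚ))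
    (π : A →+* κ) [IsLocalHom π] (hπ : Function.Surjective π) (harch : ArchA π)
    (N r : ℕ) [hr : Fact r.Prime] [hN : NeZero N] [CharP κ r] (hrN : ¬ r ∣ N)
    (hA : A.LiesOverPrime r)
    (hg : genusFF κ (modularFunctionFieldFullC κ N) =
      genusFF (AlgebraicClosure ℚ) (modularFunctionFieldFullC (AlgebraicClosure ℚ) N))
    (d : CP.DecAut A π) (hd : CP.IsFrob d r)
    (ub : modularFunctionFieldFullC κ N) (hub : (ub : LaurentSeries κ) = uL κ r)
    (y : (CP.pen A π hπ harch N r hrN hg d hd).Pt) :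
    (∀ v, At (CP.pen A π hπ harch N r hrN hg d hd).toPencil
        ((CP.pen A π hπ harch N r hrN hg d hd).frPt y) v → 1 ≤ v.ord ub ∧ v.ord ub ≤ 12) ∧
      (∀ v, At (CP.pen A π hπ harch N r hrN hg d hd).toPencil y.1 v →
        1 ≤ v.ord ub ∧ v.ord ub ≤ 12) := by
  have i0 : NeZero (N * r) := ⟨mul_ne_zero (NeZero.ne N) hr.out.ne_zero⟩
  have H := CP.pen_hyp A π hπ harch N r hrN hg d hd
  have ht : ∀ n, (((CP.pen A π hπ harch N r hrN hg d hd).t :
      modularFunctionFieldFullC (AlgebraicClosure ℚ) (N * r)) :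
        LaurentSeries (AlgebraicClosure ℚ)).coeff n ∈ fix₀ (inertΓ A) := by
    rintro n _ ⟨s, hs, rfl⟩
    obtain ⟨g, hg'⟩ := exists_coefAut (AlgebraicClosure ℚ) (N * r)
      (s : AlgebraicClosure ℚ ≃+* AlgebraicClosure ℚ)
    have h1 := CP.smul_pen_t A π hπ harch N r hrN hg d hd hg'
    have h2 := congrArg (fun z => (z : LaurentSeries (AlgebraicClosure ℚ)).coeff n)
      ((hg' (CP.pen A π hπ harch N r hrN hg d hd).t).symm.trans (congrArg Subtype.val h1))
    rw [coeffMap_coeff] at h2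
    exact h2
  exact node_order ι A π hπ harch N r hrN (CP.pen A π hπ harch N r hrN hg d hd) H.hRR H.hRR₁
    H.hpos (CP.pen_t A π hπ harch N r hrN hg d hd)
    (ratDatX A π hπ harch N r hrN (constForm A π hπ hr.out hA)
      (CP.pen A π hπ harch N r hrN hg d hd).toPencil H.hRR H.harch ht) (by rfl) ub hub y

end Qbar

end Fermat.Agent.LLn
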