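import Fermat.Agent.BadRed.KLat5
import Fermat.Agent.BadRed.KLat8
import Fermat.Agent.LLp.PtPlace

/-!
# Orders at the nodes of residues of functions with a slope
-/

set_option autoImplicit false
set_option linter.unusedSectionVars false
set_option maxHeartbeats 400000

noncomputable section

open AlgebraicCurve Module IntermediateField

namespace Fermat.Agent.LLn

open Fermat.Agent.BadRed Fermat.Agent.LLp
open Fermat.Agent.FunField Fermat.Agent.FunField.PlaceLemmas Fermat.Agent.Deuring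

variable {L k F F₁ : Type*} [Field L] [Field k] [Field F] [Field F₁] [Algebra L F] [Algebra k F₁]
  {T : TwoVal L k F F₁}

/-- the two valuations -/
def Vb (T : TwoVal L k F F₁) (b : Bool) : ResVal T.A T.π F F₁ :=
  match b with
  | false => T.V₁
  | true => T.V₂

theorem Vb_ER_of_O (h : T.toRData.O) (b : Bool) :
    (Vb T b).ER (h : F) (pr k F₁ b (T.toRData.res h)) := by
  cases b
  · exact (T.ER_of_O h).1
  · exact (T.ER_of_O h).2

theorem exists_O_of_Vb (b : Bool) {f : F} {x y : F₁} (h₁ : (Vb T b).ER f x)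
    (h₂ : (Vb T (!b)).ER f y) :
    ∃ h : T.toRData.O, (h : F) = f ∧ pr k F₁ b (T.toRData.res h) = x ∧
      pr k F₁ (!b) (T.toRData.res h) = y := by
  cases b
  · obtain ⟨h, e1, e2⟩ := T.exists_O h₁ h₂
    exact ⟨h, e1, by rw [e2]; rfl, by rw [e2]; rfl⟩
  · obtain ⟨h, e1, e2⟩ := T.exists_O h₂ h₁
    exact ⟨h, e1, by rw [e2]; rfl, by rw [e2]; rfl⟩

variable [IsFF L F] [IsFF k F₁] [HasPrincipalDivisors L F] [HasPrincipalDivisors k F₁]
  [IsAlgClosed k] {g g₁ : ℤ} (p : FrobPencil T.toRData)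

theorem mem_rr_of_red (hRR : RRLarge L F g) (b : Bool) {h : T.toRData.O} {m : ℕ}
    (hh : (h : F) ∈ riemannRochSpace (m • p.E)) :
    pr k F₁ b (T.toRData.res h) ∈ riemannRochSpace (m • p.Eb) := by
  have h1 := p.red_le hRR m ⟨h, hh, rfl⟩
  cases b
  · exact h1.1
  · exact h1.2

/-- functions vanishing on one component vanish at the nodes -/
theorem ptHom_eq_zero (hRR : RRLarge L F g) (hRR₁ : RRLarge k F₁ g₁)
    (hpos : 0 < Divisor.degree p.Eb) (b : Bool) {h : T.toRData.O} {m : ℕ}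
    (hh : (h : F) ∈ riemannRochSpace (m • p.E))
    (h0 : pr k F₁ (!b) (T.toRData.res h) = 0) (y : p.Pt) :
    p.ptHom b y ⟨pr k F₁ b (T.toRData.res h), m, mem_rr_of_red p hRR b hh⟩ = 0 := by
  obtain ⟨-, -, hS⟩ := p.structure_fibre hRR hRR₁ hpos
  have hmem : ((⟨(T.toRData.res h).1, m, mem_rr_of_red p hRR false hh⟩,
      ⟨(T.toRData.res h).2, m, mem_rr_of_red p hRR true hh⟩) : p.OO × p.OO) ∈ p.S :=
    ⟨m, p.T_zero_iff.mpr ⟨h, hh, rfl⟩⟩
  have h1 := (hS _ _).mp hmem y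
  cases b
  · have h2 : (⟨(T.toRData.res h).2, m, mem_rr_of_red p hRR true hh⟩ : p.OO) = 0 :=
      Subtype.ext h0
    rw [h2, map_zero] at h1
    exact h1.symm
  · have h2 : (⟨(T.toRData.res h).1, m, mem_rr_of_red p hRR false hh⟩ : p.OO) = 0 :=
      Subtype.ext h0
    rw [h2, map_zero, map_zero] at h1
    exact h1

/-- functions with a simple zero at a node -/
theorem exists_node_fun (hRR : RRLarge L F g) (hRR₁ : RRLarge k F₁ g₁)
    (hpos : 0 < Divisor.degree p.Eb) (b : Bool) (y : p.Pt) {v : Place k F₁}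
    (hv : At p.toPencil (p.ptHom b y) v) :
    ∃ m, ∃ q ∈ p.toPencil.Tr 0 m, pr k F₁ (!b) q = 0 ∧ pr k F₁ b q ≠ 0 ∧
      v.ord (pr k F₁ b q) ≤ 1 := by
  obtain ⟨hfin, Z, -, -⟩ := p.exists_nodeDat hRR hRR₁ hpos
  have hE : p.Eb v = 0 := hv.Eb_eq
  by_cases hz : ∃ i, v = Z.z b i
  · obtain ⟨i, rfl⟩ := hz
    obtain ⟨m, q, hq, h1, h2, h3⟩ := Z.near b i
    refine ⟨m, q, hq, h1, h2, ?_⟩
    rw [h3, hE, mul_zero, sub_zero]
  · push Not at hz
    obtain ⟨m, q, hq, h1, h2, h3⟩ := Z.far b v hz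
    refine ⟨m, q, hq, h1, h2, ?_⟩
    rw [h3, hE, mul_zero, sub_zero]
    norm_num

/-- **Lower bound.** -/
theorem one_le_ord (R : T.RatDat p.toPencil) (hRR : RRLarge L F g) (hRR₁ : RRLarge k F₁ g₁)
    (hpos : 0 < Divisor.degree p.Eb) (b : Bool) {f : F} {s : ℕ} (hs : 1 ≤ s) {x x' : F₁}
    (hx : x ≠ 0) (h1 : (Vb T b).ER f x) (h2 : (Vb T (!b)).ER (((R.ϖ : L) ^ s)⁻¹ • f) x')
    {c : ℕ} (hf : f ∈ riemannRochSpace (c • p.E)) (y : p.Pt) {v : Place k F₁}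
    (hv : At p.toPencil (p.ptHom b y) v) : 1 ≤ v.ord x := by
  have h3 : (Vb T (!b)).ER f 0 := by
    have h4 := ((ResVal.ER.cst (V := Vb T (!b)) R.ϖ).pow s).mul h2
    rw [R.res, map_zero, zero_pow (by omega), zero_mul, ← map_pow, ← Algebra.smul_def,
      smul_smul, mul_inv_cancel₀ (pow_ne_zero _ R.ne), one_smul] at h4
    exact h4
  obtain ⟨h, rfl, e1, e2⟩ := exists_O_of_Vb b h1 h3
  have h5 := ptHom_eq_zero p hRR hRR₁ hpos b hf e2 y
  have h6 : (⟨pr k F₁ b (T.toRData.res h), c, mem_rr_of_red p hRR b hf⟩ : p.OO) ≠ 0 := by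
    intro h0
    exact hx (e1 ▸ congrArg Subtype.val h0)
  have h7 := (hv.2 _ h6).mp h5
  rw [← e1]
  exact h7

theorem key_eq {L F : Type*} [Field L] [Field F] [Algebra L F] {w : L} (hw : w ≠ 0) (β f : F)
    (s : ℕ) : (w⁻¹ • β) ^ s * ((w ^ s)⁻¹ • f)⁻¹ = β ^ s * f⁻¹ := by
  have h0 : (algebraMap L F w) ^ s ≠ 0 := pow_ne_zero _ (by rwa [Ne, map_eq_zero])
  rw [Algebra.smul_def, Algebra.smul_def, map_inv₀, map_inv₀, map_pow, mul_pow, mul_inv, inv_inv,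
    inv_pow]
  calc ((algebraMap L F w) ^ s)⁻¹ * β ^ s * ((algebraMap L F w) ^ s * f⁻¹)
      = (((algebraMap L F w) ^ s)⁻¹ * (algebraMap L F w) ^ s) * (β ^ s * f⁻¹) := by ring
    _ = β ^ s * f⁻¹ := by rw [inv_mul_cancel₀ h0, one_mul]

/-- **Upper bound.** -/
theorem ord_le (R : T.RatDat p.toPencil) (hRR : RRLarge L F g) (hRR₁ : RRLarge k F₁ g₁)
    (hpos : 0 < Divisor.degree p.Eb) (b : Bool) {f : F} {s : ℕ} {x x' : F₁}
    (hx : x ≠ 0) (hx' : x' ≠ 0) (h1 : (Vb T b).ER f x)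
    (h2 : (Vb T (!b)).ER (((R.ϖ : L) ^ s)⁻¹ • f) x')
    {c : ℕ} (hf : f⁻¹ ∈ riemannRochSpace (c • p.E)) (y : p.Pt) {v : Place k F₁}
    (hv : At p.toPencil (p.ptHom b y) v) : v.ord x ≤ s := by
  obtain ⟨m, q, hq, q1, q2, q3⟩ := exists_node_fun p hRR hRR₁ hpos b y hv
  obtain ⟨β, hβK, hβ, hβq⟩ := R.rat.rat 0 (zero_mem _) m q hq
  rw [add_zero] at hβ
  -- the function is divisible on the other component
  have h3 : ((R.ϖ : L)⁻¹ • (β : F)) ∈ (Vb T (!b)).O := by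
    have e0 : (Vb T (!b)).ER (β : F) 0 := by
      have := Vb_ER_of_O β (!b)
      rwa [hβq, q1] at this
    cases b
    · exact T.V₂.dvd_of_scale R.ne (fun h0 => R.scale₂ _ hβK h0) e0
    · exact T.V₁.dvd_of_scale R.ne (fun h0 => R.scale₁ _ hβK h0) e0
  have h4 : (Vb T b).ER ((β : F) ^ s * f⁻¹) ((pr k F₁ b q) ^ s * x⁻¹) := by
    have := Vb_ER_of_O β b
    rw [hβq] at this
    exact (this.pow s).mul (h1.inv hx)
  obtain ⟨z, hz⟩ : ∃ z, (Vb T (!b)).ER ((β : F) ^ s * f⁻¹) z := by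
    have h5 := ((ResVal.ER.of_mem h3).pow s).mul (h2.inv hx')
    have hϖF : algebraMap L F (R.ϖ : L) ^ s ≠ 0 :=
      pow_ne_zero _ (by rw [Ne, map_eq_zero]; exact R.ne)
    have h6 : (((R.ϖ : L)⁻¹ • (β : F)) ^ s * (((R.ϖ : L) ^ s)⁻¹ • f)⁻¹) = (β : F) ^ s * f⁻¹ :=
      key_eq R.ne _ _ s
    rw [h6] at h5
    exact ⟨_, h5⟩
  obtain ⟨h, e0, e1, -⟩ := exists_O_of_Vb b h4 hz
  have h6 : (h : F) ∈ riemannRochSpace ((s * m + c) • p.E) := by
    have h6a := Deuring.pow_mem_rr hβ s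
    have h6b : (β : F) ^ s * f⁻¹ ∈ riemannRochSpace (s • (m • p.E) + c • p.E) :=
      Deuring.mul_mem_rr h6a hf
    have h6c : s • (m • p.E) + c • p.E = (s * m + c) • p.E := by
      ext v
      simp only [Finsupp.add_apply, Finsupp.smul_apply, nsmul_eq_mul]
      push_cast
      ring
    rw [h6c] at h6b
    rw [e0]
    exact h6b
  have h7 := mem_rr_of_red p hRR b h6
  rw [e1] at h7
  have h8 : (pr k F₁ b q) ^ s * x⁻¹ ≠ 0 := mul_ne_zero (pow_ne_zero _ q2) (inv_ne_zero hx)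
  have h9 := (mem_rr_of_ne h8).mp h7 v
  rw [Finsupp.smul_apply, hv.Eb_eq, smul_zero, neg_zero,
    v.ord_mul (pow_ne_zero _ q2) (inv_ne_zero hx), ord_pow, Place.ord_inv] at h9
  have h10 : (s : ℤ) * v.ord (pr k F₁ b q) ≤ s * 1 :=
    mul_le_mul_of_nonneg_left q3 (Int.natCast_nonneg s)
  omega

/-- **Orders of residues at the nodes.** -/
theorem slope_node (R : T.RatDat p.toPencil) (hRR : RRLarge L F g) (hRR₁ : RRLarge k F₁ g₁)
    (hpos : 0 < Divisor.degree p.Eb) {f : F} {s : ℕ} (hs : 1 ≤ s) {x₁ x₂ : F₁}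
    (hf : T.SlopeAt (R.ϖ : L) f s x₁ x₂) {c : ℕ} (hfc : f ∈ riemannRochSpace (c • p.E))
    (hfc' : f⁻¹ ∈ riemannRochSpace (c • p.E)) (y : p.Pt) :
    (∀ v, At p.toPencil (p.frPt y) v → 1 ≤ v.ord x₁ ∧ v.ord x₁ ≤ s) ∧
      (∀ v, At p.toPencil y.1 v → 1 ≤ -v.ord x₂ ∧ -v.ord x₂ ≤ s) := by
  obtain ⟨hx₁, hx₂, d, hd, h1, h2⟩ := hf
  rw [zpow_natCast] at h2
  have hf0 : f ≠ 0 := by
    rintro rfl
    exact h1.ne_zero hx₁ (smul_zero d)
  have hdF : algebraMap L F d ≠ 0 := by rwa [Ne, map_eq_zero]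
  have hϖF : algebraMap L F (R.ϖ : L) ≠ 0 := by
    rw [Ne, map_eq_zero]; exact R.ne
  constructor
  · intro v hv
    have h1' : (Vb T false).ER (d • f) x₁ := h1
    have h2' : (Vb T (!false)).ER (((R.ϖ : L) ^ s)⁻¹ • (d • f)) x₂ := by
      rw [smul_smul, mul_comm]; exact h2
    refine ⟨one_le_ord p R hRR hRR₁ hpos false hs hx₁ h1' h2' (c := c)
      (Submodule.smul_mem _ _ hfc) y hv, ord_le p R hRR hRR₁ hpos false hx₁ hx₂ h1' h2' (c := c)
      ?_ y hv⟩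
    have : (d • f)⁻¹ = d⁻¹ • f⁻¹ := by
      rw [Algebra.smul_def, Algebra.smul_def, mul_inv, map_inv₀]
    rw [this]
    exact Submodule.smul_mem _ _ hfc'
  · intro v hv
    have h3 : (Vb T true).ER ((d * ((R.ϖ : L) ^ s)⁻¹) • f)⁻¹ x₂⁻¹ := ResVal.ER.inv h2 hx₂
    have h4 : (Vb T (!true)).ER (((R.ϖ : L) ^ s)⁻¹ • ((d * ((R.ϖ : L) ^ s)⁻¹) • f)⁻¹) x₁⁻¹ := by
      have h5 : (Vb T (!true)).ER (d • f)⁻¹ x₁⁻¹ := ResVal.ER.inv h1 hx₁
      convert h5 using 1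
      rw [Algebra.smul_def, Algebra.smul_def, Algebra.smul_def, map_inv₀, map_mul, map_inv₀,
        map_pow]
      field_simp
    have h6 : ((d * ((R.ϖ : L) ^ s)⁻¹) • f)⁻¹ = (d⁻¹ * (R.ϖ : L) ^ s) • f⁻¹ := by
      rw [Algebra.smul_def, Algebra.smul_def, map_mul, map_mul, map_inv₀, map_inv₀, map_pow]
      field_simp
    have h7 : ((d * ((R.ϖ : L) ^ s)⁻¹) • f)⁻¹ ∈ riemannRochSpace (c • p.E) := by
      rw [h6]; exact Submodule.smul_mem _ _ hfc'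
    have h8 : (((d * ((R.ϖ : L) ^ s)⁻¹) • f)⁻¹)⁻¹ ∈ riemannRochSpace (c • p.E) := by
      rw [inv_inv]; exact Submodule.smul_mem _ _ hfc
    have h9 := one_le_ord p R hRR hRR₁ hpos true hs (inv_ne_zero hx₂) h3 h4 h7 y hv
    have h10 := ord_le p R hRR hRR₁ hpos true (inv_ne_zero hx₂) (inv_ne_zero hx₁) h3 h4 h8 y hv
    rw [Place.ord_inv] at h9 h10
    exact ⟨h9, h10⟩

end Fermat.Agent.LLn
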